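-- Statement S10 (row 9): the Frey curve has no Galois-stable cofixed line for p = 5, 7, 13.
-- Proof: a Frey package with p in {5, 7, 13} does not exist, by Kummer's proof of Fermat's Last
-- Theorem for these exponents (see Fermat/Agent/Kummer).
import Fermat.Statements.S10
import Fermat.Agent.Kummer.Main
import Fermat.Agent.Kummer.PID7
import Fermat.Agent.Kummer.PID13
import Fermat.Agent.Kummer.Indep5
import Fermat.Agent.Kummer.Indep7
import Fermat.Agent.Kummer.Indep13

set_option autoImplicit false
open WeierstrassCurve WeierstrassCurve.Affine WeierstrassCurve.Affine.Point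
open CuspForm ModularFormClass UpperHalfPlane
open FreyPackage

namespace Fermat.Agent.S10

theorem result (P : FreyPackage) (hp : P.p = 5 ∨ P.p = 7 ∨ P.p = 13) : ¬ HasGaloisStableCofixedLine (K := AlgebraicClosure ℚ) ℚ P.freyCurve P.p := by
  exfalso
  rcases hp with h | h | h
  · refine Fermat.Agent.Kummer.freyPackage_false P (Or.inl h) ?_ ?_
    · rw [h]
      have : IsCyclotomicExtension {5} ℚ (CyclotomicField 5 ℚ) :=
        CyclotomicField.isCyclotomicExtension 5 ℚ
      exact IsCyclotomicExtension.Rat.five_pid (CyclotomicField 5 ℚ)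
    · rw [h]; exact Fermat.Agent.Kummer.indep_5
  · refine Fermat.Agent.Kummer.freyPackage_false P (Or.inr (Or.inl h)) ?_ ?_
    · rw [h]; exact Fermat.Agent.Kummer.pid_7
    · rw [h]; exact Fermat.Agent.Kummer.indep_7
  · refine Fermat.Agent.Kummer.freyPackage_false P (Or.inr (Or.inr (Or.inr h))) ?_ ?_
    · rw [h]; exact Fermat.Agent.Kummer.pid_13
    · rw [h]; exact Fermat.Agent.Kummer.indep_13

end Fermat.Agent.S10
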