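-- Statement S11 (row 10): the Frey curve has no Galois-stable cofixed line for p = 11.
-- Proof: a Frey package with p = 11 does not exist, by Kummer's proof of Fermat's Last
-- Theorem for this exponent (see Fermat/Agent/Kummer).
import Fermat.Statements.S11
import Fermat.Agent.Kummer.Main
import Fermat.Agent.Kummer.PID11
import Fermat.Agent.Kummer.Indep11

set_option autoImplicit false
open WeierstrassCurve WeierstrassCurve.Affine WeierstrassCurve.Affine.Point
open CuspForm ModularFormClass UpperHalfPlane
open FreyPackage

namespace Fermat.Agent.S11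

theorem result (P : FreyPackage) (hp : P.p = 11) : ¬ HasGaloisStableCofixedLine (K := AlgebraicClosure ℚ) ℚ P.freyCurve P.p := by
  exfalso
  refine Fermat.Agent.Kummer.freyPackage_false P (Or.inr (Or.inr (Or.inl hp))) ?_ ?_
  · rw [hp]; exact Fermat.Agent.Kummer.pid_11
  · rw [hp]; exact Fermat.Agent.Kummer.indep_11

end Fermat.Agent.S11
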