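import Fermat.Statements.S14
import Fermat.Agent.S14.Core
import Fermat.Agent.S14.TR.F5FieldSide
import Fermat.Agent.S14.TR.V4VSide

set_option autoImplicit false
open ExtCitation

namespace Fermat.Agent.S14

theorem result {p : ℕ} [Fact p.Prime] (h3 : 3 ≤ p) :
    ExtCitation.ExtVanishingCts p := by
  exact TR.vside h3 (fun ζ β hζ hβ hfix htype hunr hloc =>
    TR.field_side (coreStatement h3) ζ β hζ hβ hfix htype hunr hloc)

end Fermat.Agent.S14
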