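import Fermat.Statements.S16
import Fermat.Agent.S16.Card
import Fermat.Agent.S16.Dual
import Fermat.Agent.S16.Upper
import Fermat.Agent.S16.Lower

set_option autoImplicit false
open ModularCurve CuspForm
open ModularCurve

namespace Fermat.Agent.S16

theorem eisensteinNumerator_pos (p : ℕ) [Fact p.Prime] : 0 < eisensteinNumerator p := by
  have hp : 2 ≤ p := (Fact.out : p.Prime).two_le
  unfold eisensteinNumerator
  apply Nat.div_pos
  · exact Nat.le_of_dvd (by omega) (Nat.gcd_dvd_left _ _)
  · exact Nat.gcd_pos_of_pos_left _ (by omega)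

theorem upper_bound (p : ℕ) [Fact p.Prime] :
    ∃ P : HeckeAlg, piL p P = 0 ∧ eps p P = (eisensteinNumerator p : ℤ) := by
  -- the ideal `eps (ker piL)` of `ℤ`
  have hsurj : Function.Surjective (eps p) := fun z => ⟨MvPolynomial.C z, by simp [eps]⟩
  set J : Ideal ℤ := Ideal.map (eps p) (RingHom.ker (piL p)) with hJ
  obtain ⟨m, hm⟩ : ∃ m : ℤ, J = Ideal.span {m} :=
    ⟨_, (IsPrincipalIdealRing.principal J).span_singleton_generator.symm⟩
  have hmem : ∀ z : ℤ, z ∈ J ↔ ∃ P : HeckeAlg, piL p P = 0 ∧ eps p P = z := by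
    intro z
    rw [hJ, Ideal.mem_map_iff_of_surjective _ hsurj]
    simp only [RingHom.mem_ker]
  have h1 : ∀ P : HeckeAlg, piL p P = 0 → m ∣ eps p P := by
    intro P hP
    have : eps p P ∈ J := (hmem _).2 ⟨P, hP, rfl⟩
    rw [hm, Ideal.mem_span_singleton] at this
    exact this
  obtain ⟨h, a, ha, hcong⟩ := exists_congruent_cuspForm p m h1
  have h2 : m ∣ (eisensteinNumerator p : ℤ) := dvd_of_congruent p m h a ha hcong
  have h3 : (eisensteinNumerator p : ℤ) ∈ J := by
    rw [hm, Ideal.mem_span_singleton]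
    exact h2
  exact (hmem _).1 h3

theorem result
    (p : ℕ) [Fact p.Prime] :
    Nat.card (↥(heckeLatticeAlgebra p ∅) ⧸
        Ideal.map ((latticeRestrictHom p ∅).toRingHom.comp (heckeEvalForms p 2))
          (eisensteinIdeal p)) =
      eisensteinNumerator p :=
  card_of_bounds p (eisensteinNumerator p) (eisensteinNumerator_pos p)
    (fun P hP => lower_bound_piL p P hP) (upper_bound p)

end Fermat.Agent.S16
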