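import Fermat.Statements.S17
import Fermat.Agent.S17.GEO.Inst
import Fermat.Agent.S17.WMW.Main
import Fermat.Agent.DIV.Main

set_option autoImplicit false
set_option linter.unusedVariables false
open ModularCurve AlgebraicCurve
open ModularCurve ModularCurve.JZero

namespace Fermat.Agent.S17

theorem result (N : ℕ) [NeZero N] (hN : N.Prime) (hN5 : 5 ≤ N) :
    AddGroup.FG ↥(FixedPoints.addSubgroup ((AlgebraicClosure ℚ) ≃ₐ[ℚ] (AlgebraicClosure ℚ)) (JZero N)) :=
  GEO.fg_of_weak N (WMW.finiteIndex_two N (DIV.divisible N 2 (by norm_num)))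

end Fermat.Agent.S17
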