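import Fermat.Statements.S18
import Fermat.Agent.S18.CCGen
import Fermat.Agent.S18.Wire

set_option autoImplicit false
set_option synthInstance.maxHeartbeats 400000
open ModularCurve

namespace Fermat.Agent.S18

open AlgebraicCurve in
theorem result (N : ℕ) [NeZero N] {ℓ : ℕ}
    [Fact ℓ.Prime] (hℓN : ¬ ℓ ∣ N) (A : ValuationSubring (AlgebraicClosure ℚ)) (hA : A.LiesOverPrime ℓ)
    (h : ModularCurve.ReductionInputsModL A N) (m : ℕ) (hm : ¬ ℓ ∣ m) (z : ModularCurve.JZero N)
    (hmz : m • z = 0) (hz : ModularCurve.reductionModL A N z = 0) :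
    z = 0 := by
  obtain ⟨D, rfl⟩ := Pic0.mk_surjective z
  have hm0 : m ≠ 0 := by
    rintro rfl
    exact hm (dvd_zero ℓ)
  have hr := isPlaceReductionModL_placeReductionModL h
  have hgen := h.choose_spec.2
  rw [reductionModL_mk h] at hz
  have h1 : m • (D : Divisor (AlgebraicClosure ℚ) (modularFunctionFieldBar N)) ∈
      Divisor.principal (K := AlgebraicClosure ℚ) (F := modularFunctionFieldBar N) := by
    have : Pic0.mk (m • D) = 0 := hmz
    have h2 := (QuotientAddGroup.eq_zero_iff _).1 this
    simpa [AddSubgroup.mem_addSubgroupOf] using h2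
  have h2 : Finsupp.mapDomain (placeReductionModL h)
      (D : Divisor (AlgebraicClosure ℚ) (modularFunctionFieldBar N)) ∈
      Divisor.principal (K := IsLocalRing.ResidueField A)
        (F := modularFunctionFieldFullC (IsLocalRing.ResidueField A) N) := by
    have h3 := (QuotientAddGroup.eq_zero_iff _).1 hz
    simpa [AddSubgroup.mem_addSubgroupOf] using h3
  have h3 := wire_main hm0 hA (cc_gen N (Fact.out : ℓ.Prime) hℓN m hm) hr hgen _ h1 h2
  refine (QuotientAddGroup.eq_zero_iff _).2 ?_
  simpa [AddSubgroup.mem_addSubgroupOf] using h3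

end Fermat.Agent.S18
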