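-- Statement S28: integrality (irreducibility + reducedness) of the fibres of the Igusa scheme in
-- characteristic `ℓ ∤ N`.  See `Fermat/Agent/S28/*.lean` for the proof (q-expansion principle at all
-- cusps via a modular unit and a trace argument).
import Fermat.Statements.S28
import Fermat.Agent.S28.Final
import Fermat.Agent.S28.WittData
import Fermat.Agent.S28.SchemePart

set_option autoImplicit false
open AlgebraicGeometry CategoryTheory CategoryTheory.Limits ModularCurve ModularCurve.IgusaScheme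
noncomputable section
set_option autoImplicit false
open ModularCurve ModularCurve.IgusaScheme

namespace Fermat.Agent.S28

/-- the Witt vector coefficient data. -/
def wData (ℓ : ℕ) [Fact ℓ.Prime] : Data ℓ (WV ℓ) (WC ℓ) (kb ℓ) where
  red := wRed ℓ
  τ := wTau ℓ
  red_τ := wRed_wTau ℓ
  ker_red := ker_wRed ℓ
  mem_iff := mem_ratLocalizedAt_iff ℓ

set_option maxHeartbeats 4000000 in
set_option synthInstance.maxHeartbeats 400000 in
theorem result
    (N : ℕ) [NeZero N] (ℓ : ℕ) [Fact ℓ.Prime] (hℓN : ¬ ℓ ∣ N)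
    (K : Type) [Field K] [CharP K ℓ] [Algebra ↥(GaloisRep.ratLocalizedAt ℓ) K] :
    IsIntegral ↑(pullback (igusaTo N ℓ)
      (Spec.map (CommRingCat.ofHom (algebraMap ↥(GaloisRep.ratLocalizedAt ℓ) K)))) := by
  obtain ⟨φfin, hfin⟩ := Final.exists_phi_ker (wData ℓ) hℓN {jFull N} (sFin_subset N)
    (fun f hf y hy hfy => Final.div_mem_fin (wData ℓ) hℓN f hf y hy hfy)
  obtain ⟨φinf, hinf⟩ := Final.exists_phi_ker (wData ℓ) hℓN {(jFull N)⁻¹} (sInf_subset N)
    (fun f hf y hy hfy => Final.div_mem_inf (wData ℓ) hℓN f hf y hy hfy)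
  obtain ⟨φmid, -⟩ := Final.exists_phi (wData ℓ) hℓN {jFull N, (jFull N)⁻¹} subset_rfl
  exact isIntegral_of_qExpansion_homs N ℓ φfin hfin φinf hinf φmid K

end Fermat.Agent.S28
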