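import Fermat.Statements.S19
import Fermat.Agent.S19.Top
import Fermat.Agent.S19.WR.Main
import Fermat.Agent.S19.Pair.Main
import Fermat.Agent.S19.ND.Main
import Fermat.Agent.S19.Norm.Main
import Fermat.Agent.S19.Lat.Main
import Fermat.Agent.S19.RED.Main
import Fermat.Agent.S19.Move.Main
import Fermat.Agent.S19.Integ.Main

set_option autoImplicit false
open ModularCurve
open ModularCurve

namespace Fermat.Agent.S19

theorem result
    (p : ℕ) [NeZero p] (ℓ : ℕ) [Fact ℓ.Prime] (hℓp : ¬ ℓ ∣ p) (k : ℕ) :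
    ∃ (H : Type) (_ : CommRing H) (_ : HopfAlgebra (GaloisRep.ratLocalizedAt ℓ) H),
      Module.Finite (GaloisRep.ratLocalizedAt ℓ) H ∧ Module.Flat (GaloisRep.ratLocalizedAt ℓ) H ∧
      Coalgebra.IsCocomm (GaloisRep.ratLocalizedAt ℓ) H ∧
      ∃ e : WithConv (H →ₐ[GaloisRep.ratLocalizedAt ℓ] AlgebraicClosure ℚ) ≃
          ↥(Submodule.torsionBy ℤ (JZero p) ((ℓ : ℤ) ^ k)),
        (∀ f g, e (f * g) = e f + e g) ∧
        ∀ (σ : AlgebraicClosure ℚ ≃ₐ[ℚ] AlgebraicClosure ℚ)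
          (f g : WithConv (H →ₐ[GaloisRep.ratLocalizedAt ℓ] AlgebraicClosure ℚ)),
          (∀ h : H, g h = σ (f h)) → ((e g : JZero p)) = σ • (e f : JZero p) := by
  have hℓ : ℓ.Prime := Fact.out
  have hm : (0 : ℤ) < (ℓ : ℤ) ^ k := pow_pos (Int.natCast_pos.2 hℓ.pos) k
  have hQ : QIntStatement p ℓ := RED.qint hℓ hℓp
  exact top p ℓ k
    (Pair.pair p wr _ (fun x => ND.exists_isRep p hm.ne' x))
    (ND.nd wr p _ hm)
    (integ p ℓ _ hm (RED.l1 hℓ hℓp) hQ (Move.l3 p ℓ hℓ hℓp) (Lat.lat p hℓ hQ) norm pch)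

end Fermat.Agent.S19
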