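import Fermat.Statements.S22
import Fermat.Agent.S22.Lattice
import Fermat.Agent.S22.Stable2
import Fermat.Agent.S22.Separate
import Fermat.Agent.S22.Trivial

set_option autoImplicit false
open CuspForm

namespace Fermat.Agent.S22

theorem result (N : ℕ) [NeZero N] (k : ℤ) (S : Set ℕ) :
    Module.Finite ℤ (CuspForm.heckeAlgebra N k S) := by
  by_cases hk : k ≤ 1
  · exact finite_of_lattice (CuspForm.heckeGenerators N k S) ⊥ Submodule.fg_bot
      (fun t _ l hl => by
        rw [Submodule.mem_bot] at hl
        rw [hl]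
        simp)
      (fun x _ => eq_zero_of_le_one hk x)
  · obtain ⟨n, rfl⟩ : ∃ n : ℕ, k = (n : ℤ) + 2 := ⟨(k - 2).toNat, by omega⟩
    exact finite_of_lattice (CuspForm.heckeGenerators N ((n : ℤ) + 2) S) (Lam N n) (Lam_fg N n)
      (generators_comp_mem_Lam S) eq_zero_of_Lam

end Fermat.Agent.S22
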