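import Fermat.Statements.S24
import Fermat.Agent.S24.Cards
import Fermat.Agent.S24.RH
import Fermat.Agent.ES.NumElliptic
import Fermat.Agent.ES.NumCusps
import Fermat.Agent.S20

set_option autoImplicit false
open ModularCurve

namespace Fermat.Agent.S24

open KaehlerDifferential in
theorem result (N : ℕ) [NeZero N]
    [AlgebraicCurve.HasCanonicalDivisor (K := AlgebraicClosure ℚ) (F := ↥(ModularCurve.modularFunctionFieldBar N))] :
    (AlgebraicCurve.genus (AlgebraicClosure ℚ) ↥(ModularCurve.modularFunctionFieldBar N) : ℚ)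
      = ModularCurve.genusFormula N := by
  classical
  have hFF : IsFF1 Kb (FN N) := isFF1_FN N
  have hnt : Nontrivial Ω[FN N⁄Kb] := nontrivial_kaehler hFF
  have hex : ∃ ω : Ω[FN N⁄Kb], ω ≠ 0 := exists_ne 0
  have h01 : (0 : Kb) ≠ 1728 := by norm_num
  have hdeg := degree_canonical hFF (transcendental_jF N) ({0, 1728} : Finset Kb)
    (by
      intro c hc
      simp only [Finset.mem_insert, Finset.mem_singleton, not_or] at hc
      exact card_places_generic N c hc.1 hc.2) hex.choose_spec
  rw [Finset.sum_pair h01, card_places_zero, card_places_1728, card_places_infty, finrank_jF]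
    at hdeg
  have hS := Fermat.Agent.ES.fixDim_S_Gamma0 N
  have hST := Fermat.Agent.ES.fixDim_ST_Gamma0 N
  have hT := Fermat.Agent.ES.fixDim_T_Gamma0 N
  have h20 := Fermat.Agent.S20.result N
  set d := Module.finrank ℂ (CuspForm (CongruenceSubgroup.Gamma0 N) 2) with hd
  set s := Fermat.Agent.ES.fixDim (Matrix.SpecialLinearGroup (Fin 2) ℤ ⧸ CongruenceSubgroup.Gamma0 N)
    ModularGroup.S with hs
  set u := Fermat.Agent.ES.fixDim (Matrix.SpecialLinearGroup (Fin 2) ℤ ⧸ CongruenceSubgroup.Gamma0 N)
    (ModularGroup.S * ModularGroup.T) with hu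
  set t := Fermat.Agent.ES.fixDim (Matrix.SpecialLinearGroup (Fin 2) ℤ ⧸ CongruenceSubgroup.Gamma0 N)
    ModularGroup.T with ht
  have hkey : AlgebraicCurve.Divisor.degree (AlgebraicCurve.canonicalDivisorOf hex.choose_spec) + 2
      = 2 * (d : ℤ) := by
    have h1 : ((2 * (d : ℤ) : ℤ) : ℚ) = ((dedekindPsi N : ℤ) - u + ((dedekindPsi N : ℤ) - s)
        - (dedekindPsi N : ℤ) - t + 2 : ℤ) := by
      push_cast
      rw [h20, genusFormula, ← hT]
      have hS' : (2 : ℚ) * s = dedekindPsi N + nuTwo N := by exact_mod_cast hS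
      have hST' : (3 : ℚ) * u = dedekindPsi N + 2 * nuThree N := by exact_mod_cast hST
      have e2 : (nuTwo N : ℚ) = 2 * s - dedekindPsi N := by linarith
      have e3 : (nuThree N : ℚ) = (3 * u - dedekindPsi N) / 2 := by linarith
      rw [e2, e3]
      ring
    rw [hdeg]
    exact_mod_cast h1.symm
  rw [← h20]
  unfold AlgebraicCurve.genus
  rw [dif_pos hex, hkey]
  norm_cast
  omega

end Fermat.Agent.S24
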