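import Fermat.Statements.S29
import Fermat.Agent.S29.Core

set_option autoImplicit false
open CuspForm CuspForm.IsNormalizedEigenform

namespace Fermat.Agent.S29

theorem result
    {N : ℕ} {g : CuspForm (CongruenceSubgroup.Gamma0 N) 2} (hg : g.IsNormalizedEigenform)
    {p : ℕ} (hp : p.Prime) {k : Type} [Field k] [CharP k p]
    (φ : integralClosure ℤ ℂ →+* k) :
    ∃ ρ : ResidualGaloisRep k, ρ.IsAttachedTo g φ ∧
      ∀ ℓ : ℕ, ℓ.Prime → ¬ ℓ ∣ N * p → ρ.IsUnramifiedAt ℓ := by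
  by_cases hN : N = 0
  · subst hN
    exact ⟨trivialRep k, fun ℓ _ h => absurd (dvd_zero ℓ) h, fun ℓ _ h => absurd (by simp) h⟩
  haveI : NeZero N := ⟨hN⟩
  haveI : Fact p.Prime := ⟨hp⟩
  haveI h𝔪 : (RingHom.ker φ).IsMaximal := ker_isMaximal hp φ
  letI := Ideal.Quotient.field (RingHom.ker φ)
  obtain ⟨ρ, h1, h2⟩ := exists_rep_quotient (p := p) hg (RingHom.ker φ) (natCast_mem_ker φ)
  let ψ : (integralClosure ℤ ℂ ⧸ RingHom.ker φ) →+* k := RingHom.kerLift φ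
  have hψ : ∀ a, ψ (Ideal.Quotient.mk (RingHom.ker φ) a) = φ a := fun a => rfl
  refine ⟨ρ.baseChangeAlong ψ, ?_, ?_⟩
  · intro ℓ hℓ hℓN hℓk A hA σ hσ
    have hℓNp : ¬ ℓ ∣ N * p := by
      intro h
      rcases (Nat.Prime.dvd_mul hℓ).1 h with h | h
      · exact hℓN h
      · rw [(Nat.prime_dvd_prime_iff_eq hℓ hp).1 h] at hℓk
        exact hℓk (CharP.cast_eq_zero k p)
    obtain ⟨a, ha, hc⟩ := h1 ℓ hℓ hℓNp A hA σ hσ
    refine ⟨a, ha, ?_⟩
    rw [charpoly_baseChangeAlong, hc]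
    simp only [Polynomial.map_add, Polynomial.map_sub, Polynomial.map_mul, Polynomial.map_pow,
      Polynomial.map_X, Polynomial.map_C, hψ, map_natCast, Polynomial.map_natCast]
  · intro ℓ hℓ hℓN A hA σ hσ
    exact baseChangeAlong_eq_one ψ ρ (h2 ℓ hℓ hℓN A hA σ hσ)

end Fermat.Agent.S29
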