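import Fermat.Statements.S31
import Fermat.Agent.S31.Core
import Fermat.Agent.S31.Bridge
import Fermat.Agent.S31.Restrict
import Fermat.Agent.S31.Exists

set_option autoImplicit false
variable {p : ℕ} {N : ℕ} [NeZero N] {S : Finset ℕ}
  {𝒪 : Type} [CommRing 𝒪] [IsDomain 𝒪] [IsDiscreteValuationRing 𝒪]
  [IsAdicComplete (IsLocalRing.maximalIdeal 𝒪) 𝒪]
  {θ : CuspForm.heckeAlgebra N 2 (↑S : Set ℕ) →+* IsLocalRing.ResidueField 𝒪}
  {T : Type} [CommRing T] [IsLocalRing T] [IsNoetherianRing T]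
  [IsAdicComplete (IsLocalRing.maximalIdeal T) T] [Algebra 𝒪 T] [IsLocalHom (algebraMap 𝒪 T)]
  [Module.Finite 𝒪 T] [Module.Free 𝒪 T]
open CuspForm CuspForm.HeckeGaloisRepDatum

namespace Fermat.Agent.S31

theorem trace_det_of_charpoly {T : Type*} [CommRing T] [Nontrivial T]
    (X : Matrix (Fin 2) (Fin 2) T) (a d : T)
    (h : X.charpoly = Polynomial.X ^ 2 - Polynomial.C a * Polynomial.X + Polynomial.C d) :
    X.trace = a ∧ X.det = d := by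
  rw [Matrix.charpoly_fin_two] at h
  constructor
  · have := congrArg (fun f => Polynomial.coeff f 1) h
    simpa [Polynomial.coeff_X, Polynomial.coeff_C, Polynomial.coeff_X_pow] using this
  · have := congrArg (fun f => Polynomial.coeff f 0) h
    simpa [Polynomial.coeff_X, Polynomial.coeff_C, Polynomial.coeff_X_pow] using this

theorem result (hp : p.Prime)
    (hp𝒪 : (p : 𝒪) ∈ IsLocalRing.maximalIdeal 𝒪) (hpS : p ∈ S)
    (hNS : ∀ q : ℕ, q.Prime → q ∣ N → q ∈ S)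
    (H : CuspForm.HeckeGaloisRepDatum N (↑S : Set ℕ) 𝒪 θ T)
    (q : ℕ) (hq : q.Prime) (hqS : q ∉ S) :
    H.ρ.IsUnramifiedAt q := by
  classical
  obtain ⟨Sys⟩ := exists_kummerSystem N p hp
  obtain ⟨M, hM1, hMchar, hMcont, hMirr⟩ := exists_matrix_form H.ρ H.residual_absIrr
  intro P hP τ hτ
  apply hM1
  have hpT : (p : T) ∈ IsLocalRing.maximalIdeal T := by
    have h1 : (p : T) = algebraMap 𝒪 T (p : 𝒪) := (map_natCast (algebraMap 𝒪 T) p).symm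
    rw [h1]
    exact map_nonunit (algebraMap 𝒪 T) _ hp𝒪
  let cond : ℕ → Prop := fun ℓ => ℓ.Prime ∧ ¬ ℓ ∣ N ∧ ℓ ∉ (↑S : Set ℕ)
  let tS : ℕ → heckeAlgebra N 2 (↑S : Set ℕ) := fun ℓ =>
    if h : cond ℓ then heckeAlgebra.T h.1 h.2.1 h.2.2 else 0
  let THS : ℕ → Module.End ℤ Sys.H := fun ℓ => if cond ℓ then Sys.T ℓ else 0
  have hcond : ∀ ℓ : ℕ, ℓ.Prime → ℓ ∉ S → cond ℓ := fun ℓ hℓ hℓS =>
    ⟨hℓ, fun hd => hℓS (hNS ℓ hℓ hd), fun h => hℓS (Finset.mem_coe.mp h)⟩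
  have hndvd : ∀ ℓ : ℕ, ℓ.Prime → ℓ ∉ S → ¬ ℓ ∣ N * p := by
    intro ℓ hℓ hℓS hd
    rcases (Nat.Prime.dvd_mul hℓ).mp hd with h | h
    · exact hℓS (hNS ℓ hℓ h)
    · exact hℓS (((Nat.prime_dvd_prime_iff_eq hℓ hp).mp h) ▸ hpS)
  have hTHS : ∀ ℓ : ℕ, ℓ.Prime → ℓ ∉ S → THS ℓ = Sys.T ℓ := fun ℓ hℓ hℓS =>
    if_pos (hcond ℓ hℓ hℓS)
  have hfrob : ∀ ℓ : ℕ, ℓ.Prime → ℓ ∉ S → ∀ A : ValuationSubring Qb, A.LiesOverPrime ℓ →
      ∀ σ : GQ, A.IsFrobeniusAt σ ℓ → (M σ).trace = H.π (tS ℓ) ∧ (M σ).det = (ℓ : T) := by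
    intro ℓ hℓ hℓS A hA σ hσ
    have hc := hcond ℓ hℓ hℓS
    have h1 := H.charpoly_frob ℓ hℓ hc.2.1 hc.2.2 A hA σ hσ
    rw [← hMchar] at h1
    have h2 : tS ℓ = heckeAlgebra.T hc.1 hc.2.1 hc.2.2 := dif_pos hc
    rw [h2]
    exact trace_det_of_charpoly _ _ _ h1
  have faithful : ∀ Q : FreeAlgebra ℤ ℕ, FreeAlgebra.lift ℤ THS Q = 0 →
      FreeAlgebra.lift ℤ tS Q = 0 := by
    refine restrict_faithful (heckeAlgebra N 2 (↑S : Set ℕ)).subtype Subtype.val_injective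
      cond Sys.T (heckeFam N) tS ?_ Sys.link
    intro ℓ
    by_cases h : cond ℓ
    · have h2 : tS ℓ = heckeAlgebra.T h.1 h.2.1 h.2.2 := dif_pos h
      rw [h2, if_pos h]
      have h3 : heckeFam N ℓ = CuspForm.heckeTLin 2 h.1 h.2.1 := dif_pos ⟨h.1, h.2.1⟩
      rw [h3]
      rfl
    · have h2 : tS ℓ = 0 := dif_neg h
      rw [h2, if_neg h, map_zero]
  exact core p hp hpT S hpS M hMcont H.π tS hfrob THS faithful Sys.tors Sys.act Sys.smooth Sys.TW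
    (fun n ℓ hℓ hℓS => Sys.comm n ℓ hℓ (hndvd ℓ hℓ hℓS))
    (fun n ℓ hℓ hℓS => Sys.es n ℓ hℓ (hndvd ℓ hℓ hℓS))
    (fun n ℓ hℓ hℓS => Sys.unram n ℓ hℓ (hndvd ℓ hℓ hℓS))
    Sys.κ Sys.κ_ker
    (fun n ℓ hℓ hℓS h => by rw [hTHS ℓ hℓ hℓS]; exact Sys.κ_T n ℓ hℓ (hndvd ℓ hℓ hℓS) h)
    ((algebraMap (IsLocalRing.ResidueField T)
      (AlgebraicClosure (IsLocalRing.ResidueField T))).comp (IsLocalRing.residue T))
    hMirr q hq hqS P hP τ hτ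

end Fermat.Agent.S31
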