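-- Statement S35 (row 34): the Galois representation of a newform at the primes exactly dividing the level.
import Fermat.Statements.S35
import Fermat.Agent.NEW.Main
import Fermat.Agent.S35.Steinberg
import Fermat.Agent.S35.Root

set_option autoImplicit false
set_option autoImplicit false
open Polynomial
open CuspForm CuspForm.IsNewform

namespace Fermat.Agent.S35

theorem result
    {M : ℕ} [NeZero M] {g : CuspForm (CongruenceSubgroup.Gamma0 M) 2} (hg : g.IsNewform)
    (lam : ℕ) [Fact lam.Prime]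
    (S : Finset ℕ)
    (O' : Type) [CommRing O'] [IsDomain O'] [IsDiscreteValuationRing O']
    [IsAdicComplete (IsLocalRing.maximalIdeal O') O'] [Finite (IsLocalRing.ResidueField O')]
    [CharZero O'] (hlamO' : (lam : O') ∈ IsLocalRing.maximalIdeal O')
    (chig : CuspForm.heckeAlgebra M 2 (↑S : Set ℕ) →+* ℂ)
    (hchig : ∀ (ℓ : ℕ) (hℓ : ℓ.Prime) (hℓM : ¬ ℓ ∣ M) (hℓS : ℓ ∉ (↑S : Set ℕ)),
      chig (CuspForm.heckeAlgebra.T hℓ hℓM hℓS) = ModularFormClass.qCoeff g ℓ)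
    (iota : chig.range →+* O')
    (hlamS : lam ∈ S) (hMS : ∀ q : ℕ, q.Prime → q ∣ M → q ∈ S)
    :
    ∃ (O'' : Type) (_ : CommRing O'') (_ : IsDomain O'') (_ : IsDiscreteValuationRing O'')
      (_ : IsAdicComplete (IsLocalRing.maximalIdeal O'') O'') (_ : Finite (IsLocalRing.ResidueField O''))
      (_ : CharZero O'') (_ : Algebra O' O'') (_ : Module.Finite O' O'') (_ : IsLocalHom (algebraMap O' O'')),
      Function.Injective (algebraMap O' O'') ∧
      ∃ ρ : GaloisRepAdic O'',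
        (∀ (ℓ : ℕ) (hℓ : ℓ.Prime) (hℓM : ¬ ℓ ∣ M) (hℓS : ℓ ∉ (↑S : Set ℕ)),
          ∀ A : ValuationSubring (AlgebraicClosure ℚ), A.LiesOverPrime ℓ →
            ∀ σ : AlgebraicClosure ℚ ≃ₐ[ℚ] AlgebraicClosure ℚ, A.IsFrobeniusAt σ ℓ →
              LinearMap.charpoly (ρ.ρ σ) =
                X ^ 2 - C (algebraMap O' O'' ((iota.comp chig.rangeRestrict) (CuspForm.heckeAlgebra.T hℓ hℓM hℓS))) * X
                  + C ((ℓ : O''))) ∧
        (∀ q : ℕ, q.Prime → q ≠ lam → q ∣ M → ¬ q ^ 2 ∣ M →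
          ∀ A : ValuationSubring (AlgebraicClosure ℚ), A.LiesOverPrime q →
            ∀ σ : AlgebraicClosure ℚ ≃ₐ[ℚ] AlgebraicClosure ℚ, A.IsFrobeniusAt σ q →
              LinearMap.charpoly (ρ.ρ σ) = X ^ 2 - C ((q : O'') + 1) * X + C ((q : O'')) ∨
              LinearMap.charpoly (ρ.ρ σ) = X ^ 2 + C ((q : O'') + 1) * X + C ((q : O''))) := by
  have hlam : lam.Prime := Fact.out
  have : NeZero lam := ⟨hlam.ne_zero⟩
  obtain ⟨Cd⟩ := NEW.exists_coord M lam hlam
  obtain ⟨ρ, hρ, hρc⟩ := NEW.exists_rep' Cd.toAdicESDatum O' hlamO'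
  obtain ⟨t, d, ρ₂, hd, hrel, hchar, ⟨v₀, hv₀, hv₀ne⟩, hstab, -, hfrob, -⟩ :=
    NEW.main' Cd.toAdicESDatum S hlamS O' hlamO' (iota.comp chig.rangeRestrict) ρ hρ
  refine ⟨O', inferInstance, inferInstance, inferInstance, inferInstance, inferInstance,
    inferInstance, Algebra.id O', Module.Finite.self O', ⟨fun a ha => ha⟩, Function.injective_id,
    ρ₂, hfrob, ?_⟩
  intro q hq hqlam hqM hq2 A hA σ hσ
  have hdσ : d σ = (q : O') := hd.frob q hq hqlam A hA σ hσ
  have ht : t σ = (q : O') + 1 ∨ t σ = -((q : O') + 1) := by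
    obtain ⟨N, hN⟩ : ∃ N, M = N * q := by
      obtain ⟨N, hN⟩ := hqM
      exact ⟨N, by rw [hN, mul_comm]⟩
    subst hN
    have hN0 : NeZero N := ⟨fun h => NeZero.ne (N * q) (by rw [h, zero_mul])⟩
    have hq0 : NeZero q := ⟨hq.ne_zero⟩
    have hqN : ¬ q ∣ N := by
      intro h
      apply hq2
      rw [pow_two]
      exact Nat.mul_dvd_mul_right h q
    refine trace_of_common_root (ρ σ) _ (hstab σ) (t σ) q hq.ne_zero ?_ ?_ v₀ hv₀ hv₀ne
    · intro v hv
      rw [← hdσ]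
      exact hrel σ v hv
    · intro v hv
      rw [← polyQ_mulVec]
      exact frob_poly_zero hq hlam hqlam hqN Cd hg S hlamS hMS hlamO' chig hchig iota ρ hρc A hA σ
        hσ v hv
  rw [hchar σ, hdσ]
  rcases ht with ht | ht
  · left
    rw [ht]
  · right
    rw [ht, map_neg]
    ring

end Fermat.Agent.S35
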