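import Fermat.Statements.S42
import Fermat.Agent.S42.Level

set_option autoImplicit false
open FreyPackage

namespace Fermat.Agent.S42

open Fermat.Agent.S29 in
theorem result (P : FreyPackage) :
    ∀ M : ℕ, 0 < M → P.EigenformResidualAttachmentAt M := by
  intro M hM g hg 𝔪 h𝔪 hp𝔪
  haveI : NeZero M := ⟨hM.ne'⟩
  haveI : Fact P.p.Prime := ⟨P.pp⟩
  letI := Ideal.Quotient.field 𝔪
  obtain ⟨ρ, h1, -⟩ := exists_rep_quotient (p := P.p) hg 𝔪 hp𝔪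
  haveI : CharP (integralClosure ℤ ℂ ⧸ 𝔪) P.p := by
    have h0 : ((P.p : ℕ) : integralClosure ℤ ℂ ⧸ 𝔪) = 0 := by
      rw [← map_natCast (Ideal.Quotient.mk 𝔪)]
      exact Ideal.Quotient.eq_zero_iff_mem.2 hp𝔪
    exact (CharP.charP_iff_prime_eq_zero P.pp).2 h0
  obtain ⟨L₁, hL₁, hfix₁⟩ := frey_level P
  obtain ⟨L₂, hL₂, hfix₂⟩ := ρ.factorsThroughFiniteLevel
  obtain ⟨L, hLfin, hLgal, hle₁, hle₂⟩ := exists_galois_level L₁ L₂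
  have hNp : ∀ ℓ : ℕ, ℓ.Prime → ¬ ℓ ∣ M → ℓ ≠ P.p → ¬ ℓ ∣ M * P.p := by
    intro ℓ hℓ h1 h2 h
    rcases (Nat.Prime.dvd_mul hℓ).1 h with h | h
    · exact h1 h
    · exact h2 ((Nat.prime_dvd_prime_iff_eq hℓ P.pp).1 h)
  refine ⟨integralClosure ℤ ℂ ⧸ 𝔪, inferInstance, ZMod.algebra _ P.p, ρ.V, inferInstance,
    inferInstance, ρ.ρ, Ideal.Quotient.mk 𝔪, L, inferInstance,
    { to_charZero := inferInstance, to_finiteDimensional := hLfin }, hLgal, inferInstance,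
    inferInstance, ?_, ρ.finrank_eq, ?_, ?_, ?_⟩
  · rw [Ideal.mk_ker]
  · intro σ hσ
    have hσL : ∀ x ∈ L, σ x = x := by
      intro x hx
      have h3 := AlgEquiv.restrictNormal_commutes σ L ⟨x, hx⟩
      have h4 : AlgEquiv.restrictNormal σ L = 1 := hσ
      rw [h4] at h3
      exact h3.symm
    refine Subgroup.mem_inf.2 ⟨?_, ?_⟩
    · exact hfix₁ σ fun x hx => hσL x (hle₁ hx)
    · exact hfix₂ σ fun x hx => hσL x (hle₂ hx)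
  · intro ℓ hℓ hℓM hℓp A hA τ hτ
    obtain ⟨a, ha, hc⟩ := h1 ℓ hℓ (hNp ℓ hℓ hℓM hℓp) A hA τ hτ
    exact ⟨a, ha, (trace_det_of_charpoly ρ.finrank_eq _ _ _ hc).1⟩
  · intro ℓ hℓ hℓM hℓp A hA τ hτ
    obtain ⟨a, ha, hc⟩ := h1 ℓ hℓ (hNp ℓ hℓ hℓM hℓp) A hA τ hτ
    exact (trace_det_of_charpoly ρ.finrank_eq _ _ _ hc).2

end Fermat.Agent.S42
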