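-- Statement S49 (row 44): Deligne--Serre lifting lemma.
import Fermat.Statements.S49
import Fermat.Agent.S49.Formal
import Fermat.Agent.S49.Algebra
import Fermat.Agent.S49.Hecke

set_option autoImplicit false
open CuspForm EisensteinWeightOne CongruenceSubgroup ModularFormClass
open FLT FLT.AbstractIntegralStructure

namespace Fermat.Agent.S49

theorem three_mem_congIdeal {N : ℕ} [NeZero N] {f₀ : CuspForm (Gamma0 N) 2}
    (hf₀ : f₀ ∈ CuspForm.intLattice N 2) : ((3 : ℕ) : TT N) ∈ congIdeal f₀ := by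
  refine ⟨f₀, hf₀, ?_⟩
  rw [map_natCast, Module.End.natCast_apply, ← Nat.cast_smul_eq_nsmul ℂ]
  norm_num

theorem one_notMem_congIdeal {N : ℕ} [NeZero N] {f₀ : CuspForm (Gamma0 N) 2} {af : ℕ → ℤ}
    (haf : ∀ n, (af n : ℂ) = ModularFormClass.qCoeff f₀ n) (h1 : (3 : ℤ) ∣ af 1 - 1) :
    congIdeal f₀ ≠ ⊤ := by
  intro htop
  have h : (1 : TT N) ∈ congIdeal f₀ := htop ▸ Submodule.mem_top
  obtain ⟨g, hg, hfg⟩ := h
  rw [map_one, Module.End.one_apply] at hfg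
  obtain ⟨m, hm⟩ := (mem_intLattice_iff' g).mp hg 1
  have h2 : (af 1 : ℂ) = ((3 * m : ℤ) : ℂ) := by
    rw [haf, hfg, qCoeff_smul', hm]
    push_cast
    ring
  have h3 : af 1 = 3 * m := by exact_mod_cast h2
  omega

theorem T_sub_mem_congIdeal {N : ℕ} [NeZero N] {f₀ : CuspForm (Gamma0 N) 2} {af a : ℕ → ℤ}
    (haf : ∀ n, (af n : ℂ) = ModularFormClass.qCoeff f₀ n) (hafa : ∀ n, (3 : ℤ) ∣ af n - a n)
    (heig : FormalHecke.IsEigensystem
      (fun ℓ => if ℓ ∣ N then 0 else ((chiNegThree ℓ : ℤ) : ℤ)) a)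
    {ℓ : ℕ} (hℓ : ℓ.Prime) (hℓN : ¬ ℓ ∣ N) :
    (CuspForm.heckeAlgebra.T hℓ hℓN (Set.notMem_empty ℓ) : TT N) - ((a ℓ : ℤ) : TT N)
      ∈ congIdeal f₀ := by
  rw [mem_congIdeal]
  have hphi : phi N ((CuspForm.heckeAlgebra.T hℓ hℓN (Set.notMem_empty ℓ) : TT N)
      - ((a ℓ : ℤ) : TT N)) f₀ = CuspForm.heckeTLin 2 hℓ hℓN f₀ - (a ℓ : ℂ) • f₀ := by
    rw [map_sub, map_intCast, LinearMap.sub_apply, Module.End.intCast_apply,
      Int.cast_smul_eq_zsmul]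
    rfl
  rw [hphi]
  apply exists_eq_three_smul
  intro n
  have hrel := heig.2 ℓ hℓ n
  simp only [if_neg hℓN] at hrel
  obtain ⟨k1, hk1⟩ := hafa (ℓ * n)
  obtain ⟨k2, hk2⟩ := hafa n
  obtain ⟨k3, hk3⟩ := chi_congr ℓ
  rw [qCoeff_sub', qCoeff_smul', qCoeff_heckeTLin, ← haf, ← haf]
  by_cases hd : ℓ ∣ n
  · obtain ⟨k4, hk4⟩ := hafa (n / ℓ)
    rw [if_pos hd] at hrel ⊢
    rw [← haf]
    refine ⟨k1 + k3 * af (n / ℓ) + chiNegThree ℓ * k4 - a ℓ * k2, ?_⟩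
    have : af (ℓ * n) + (ℓ : ℤ) * af (n / ℓ) - a ℓ * af n =
        3 * (k1 + k3 * af (n / ℓ) + chiNegThree ℓ * k4 - a ℓ * k2) := by
      linear_combination hk1 + af (n / ℓ) * hk3 + chiNegThree ℓ * hk4 - a ℓ * hk2 + hrel
    exact_mod_cast this
  · rw [if_neg hd] at hrel ⊢
    rw [← haf]
    refine ⟨k1 - a ℓ * k2, ?_⟩
    have : af (ℓ * n) + (ℓ : ℤ) * 0 - a ℓ * af n = 3 * (k1 - a ℓ * k2) := by
      linear_combination hk1 - a ℓ * hk2 + hrel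
    exact_mod_cast this

theorem result
    {N : ℕ} [NeZero N] (h : CuspForm.HasIntegralBasis N) {a : ℕ → ℤ}
    (heig : FormalHecke.IsEigensystem
      (fun ℓ => if ℓ ∣ N then 0 else ((chiNegThree ℓ : ℤ) : ℤ)) a)
    (hreal : CuspForm.IsLatticeRealized N a) :
    ∃ (f : CuspForm (Gamma0 N) 2) (_ : f.IsNormalizedEigenform)
      (𝔪' : Ideal (integralClosure ℤ ℂ)), 𝔪'.IsMaximal ∧
      ((3 : ℕ) : integralClosure ℤ ℂ) ∈ 𝔪' ∧
      ∀ (ℓ : ℕ) (_ : ℓ.Prime) (_ : ¬ ℓ ∣ N),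
        ∃ c : integralClosure ℤ ℂ, (c : ℂ) = ModularFormClass.qCoeff f ℓ ∧
          c - (a ℓ : integralClosure ℤ ℂ) ∈ 𝔪' := by
  obtain ⟨f₀, hf₀, af, haf, hcong⟩ := hreal
  have hf₀L : f₀ ∈ CuspForm.intLattice N 2 := by
    have : f₀ ∈ (CuspForm.intLattice N 2 : Set (CuspForm (Gamma0 N) 2)) := qIntegralSet_eq N ▸ hf₀
    exact this
  have hfin : Module.Finite ℤ (TT N) := finite_TT h
  have hafa : ∀ n, (3 : ℤ) ∣ af n - a n := fun n => by
    have := dvd_add (hcong n) (bridge_coeff_congr a n)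
    simpa using this
  have hI : congIdeal f₀ ≠ ⊤ := one_notMem_congIdeal haf (by have := hafa 1; rwa [heig.1] at this)
  obtain ⟨𝔪, hmax, hle⟩ := Ideal.exists_le_maximal _ hI
  have hprime : 𝔪.IsPrime := hmax.isPrime
  obtain ⟨v, χ, hv0, hχ, hker⟩ := exists_eigen_character_ker_le (phi N) phi_injective 𝔪
  obtain ⟨χ', 𝔪', hχ', hmax', hmem⟩ := exists_maximal_over χ 𝔪 hker
  -- Hecke relations on the coefficients of `v`
  have hT : ∀ (ℓ : ℕ) (hℓ : ℓ.Prime) (hℓN : ¬ ℓ ∣ N) (n : ℕ),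
      qCoeff v (ℓ * n) + (ℓ : ℂ) * (if ℓ ∣ n then qCoeff v (n / ℓ) else 0) =
        χ (CuspForm.heckeAlgebra.T hℓ hℓN (Set.notMem_empty ℓ)) * qCoeff v n := by
    intro ℓ hℓ hℓN n
    rw [← qCoeff_heckeTLin hℓ hℓN, ← qCoeff_smul', ← hχ]
    rfl
  have hU : ∀ (ℓ : ℕ) (hℓ : ℓ.Prime) (hℓN : ℓ ∣ N) (n : ℕ),
      qCoeff v (ℓ * n) =
        χ (CuspForm.heckeAlgebra.U hℓ hℓN (Set.notMem_empty ℓ)) * qCoeff v n := by
    intro ℓ hℓ hℓN n
    rw [← qCoeff_heckeULin hℓ hℓN, ← qCoeff_smul', ← hχ]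
    rfl
  let e : ℕ → ℂ := fun ℓ => if ℓ ∣ N then 0 else (ℓ : ℂ)
  have hrec : ∀ ℓ : ℕ, ℓ.Prime → ∃ lam : ℂ, ∀ n : ℕ,
      qCoeff v (ℓ * n) + e ℓ * (if ℓ ∣ n then qCoeff v (n / ℓ) else 0) = lam * qCoeff v n := by
    intro ℓ hℓ
    by_cases hℓN : ℓ ∣ N
    · refine ⟨χ (CuspForm.heckeAlgebra.U hℓ hℓN (Set.notMem_empty ℓ)), fun n => ?_⟩
      simp only [e, if_pos hℓN, zero_mul, add_zero]
      exact hU ℓ hℓ hℓN n
    · refine ⟨χ (CuspForm.heckeAlgebra.T hℓ hℓN (Set.notMem_empty ℓ)), fun n => ?_⟩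
      simp only [e, if_neg hℓN]
      exact hT ℓ hℓ hℓN n
  have hc1 : qCoeff v 1 ≠ 0 := by
    intro h1
    apply hv0
    apply eq_zero_of_qCoeff
    intro n
    rcases Nat.eq_zero_or_pos n with rfl | hn
    · exact qCoeff_zero_index v
    · exact coeff_eq_zero_of_one_eq_zero hrec h1 n hn
  have hsys := normalized_eigensystem hrec hc1
  let f : CuspForm (Gamma0 N) 2 := (qCoeff v 1)⁻¹ • v
  have hfc : ∀ n, qCoeff f n = (qCoeff v 1)⁻¹ * qCoeff v n := fun n => qCoeff_smul' _ _ _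
  have hnorm : f.IsNormalizedEigenform := by
    refine ⟨?_, ?_, ?_, ?_⟩
    · rw [hfc]; exact hsys.1
    · intro m n hmn
      rw [hfc, hfc, hfc]
      exact eigensystem_mul_of_coprime hsys m n hmn
    · intro p r hp hpN
      rw [hfc, hfc, hfc, hfc]
      have := eigensystem_prime_pow hsys p r hp
      simp only [e, if_neg hpN] at this
      exact this
    · intro p r hp hpN
      rw [hfc, hfc, hfc]
      have := eigensystem_prime_pow hsys p r hp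
      simp only [e, if_pos hpN, zero_mul, sub_zero] at this
      exact this
  refine ⟨f, hnorm, 𝔪', hmax', ?_, ?_⟩
  · have := hmem _ (hle (three_mem_congIdeal hf₀L))
    rwa [map_natCast] at this
  · intro ℓ hℓ hℓN
    refine ⟨χ' (CuspForm.heckeAlgebra.T hℓ hℓN (Set.notMem_empty ℓ)), ?_, ?_⟩
    · rw [hχ', hfc]
      have h1 := hT ℓ hℓ hℓN 1
      have hnd : ¬ ℓ ∣ 1 := fun hd => hℓ.one_lt.ne' (Nat.dvd_one.mp hd)
      rw [if_neg hnd, mul_zero, add_zero, mul_one] at h1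
      rw [h1]
      field_simp
    · have := hmem _ (hle (T_sub_mem_congIdeal haf hafa heig hℓ hℓN))
      rwa [map_sub, map_intCast] at this

end Fermat.Agent.S49
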