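import Fermat.Statements.S52
import Fermat.Agent.S52.Count
import Fermat.Agent.S52.Cong
import Fermat.Agent.S52.Semistable
import Fermat.Agent.S52.Irr

set_option autoImplicit false
open WeierstrassCurve WeierstrassCurve.Affine WeierstrassCurve.Affine.Point
open CuspForm ModularFormClass UpperHalfPlane
open WeierstrassCurve

namespace Fermat.Agent.S52

theorem apOfModel_eq (W : WeierstrassCurve ℤ) (ℓ : ℕ) [Fact ℓ.Prime] (hℓ : 5 ≤ ℓ) :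
    W.apOfModel ℓ = (ℓ : ℤ) + 1
      - (Nat.card (SPt (-27 * ((W.c₄ : ℤ) : ZMod ℓ)) (-54 * ((W.c₆ : ℤ) : ZMod ℓ))) : ℤ) := by
  unfold WeierstrassCurve.apOfModel WeierstrassCurve.traceOfFrobenius WeierstrassCurve.card
  rw [card_short ℓ hℓ, Nat.card_zmod]
  unfold WeierstrassCurve.reductionMod
  rw [WeierstrassCurve.map_c₄, WeierstrassCurve.map_c₆]
  rfl

theorem c4fam_cast (ℓ : ℕ) (c₄ c₆ Δ t : ℤ) :
    ((c4fam c₄ c₆ Δ t : ℤ) : ZMod ℓ) = c4fam (c₄ : ZMod ℓ) (c₆ : ZMod ℓ) (Δ : ZMod ℓ) (t : ZMod ℓ) := by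
  simp only [c4fam]; push_cast; rfl

theorem c6fam_cast (ℓ : ℕ) (c₄ c₆ Δ t : ℤ) :
    ((c6fam c₄ c₆ Δ t : ℤ) : ZMod ℓ) = c6fam (c₄ : ZMod ℓ) (c₆ : ZMod ℓ) (Δ : ZMod ℓ) (t : ZMod ℓ) := by
  simp only [c6fam]; push_cast; rfl

theorem Dfam_cast (ℓ : ℕ) (c₄ c₆ Δ t : ℤ) :
    ((Dfam c₄ c₆ Δ t : ℤ) : ZMod ℓ) = Dfam (c₄ : ZMod ℓ) (c₆ : ZMod ℓ) (Δ : ZMod ℓ) (t : ZMod ℓ) := by
  simp only [Dfam]; push_cast; rfl

theorem result (W : WeierstrassCurve ℤ) (hΔ : W.Δ ≠ 0) (hW : W.IsSemistableModel) (h5 : W.ModRepIsIrreducible 5) : ∃ W' : WeierstrassCurve ℤ, W'.Δ ≠ 0 ∧ W'.IsSemistableModel ∧ W'.ModRepIsIrreducible 3 ∧ ∀ ℓ : ℕ, ℓ.Prime → W.IsGoodPrimeFor ℓ → W'.IsGoodPrimeFor ℓ → ℓ ≠ 5 → (5 : ℤ) ∣ (W'.apOfModel ℓ - W.apOfModel ℓ) := by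
  by_cases h3 : W.ModRepIsIrreducible 3
  · exact ⟨W, hΔ, hW, h3, fun ℓ _ _ _ _ => by simp⟩
  have hrel : W.c₄ ^ 3 - W.c₆ ^ 2 = 1728 * W.Δ := by rw [W.c_relation]
  obtain ⟨t, ht, hroot⟩ := exists_t_no_root W.c₄ W.c₆ W.Δ hrel hΔ
    (exists_root_of_reducible W hΔ h3) ((6 : ℤ) ^ 8 * 5 * W.Δ)
    (mul_ne_zero (by norm_num) hΔ)
  have ht6 : (6 : ℤ) ^ 8 ∣ t := Dvd.dvd.trans ⟨5 * W.Δ, by ring⟩ ht
  have hΔ' := famModel_Δ_ne_zero W hΔ t ht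
  refine ⟨famModel W t, hΔ', famModel_semistable W hΔ hW t ht, ?_, ?_⟩
  · by_contra hirr
    obtain ⟨X, hX⟩ := exists_root_of_reducible (famModel W t) hΔ' hirr
    rw [famModel_c₄ W t ht6, famModel_c₆ W t ht6] at hX
    exact hroot X hX
  · intro ℓ hℓ hg hg' hℓ5
    haveI : Fact ℓ.Prime := ⟨hℓ⟩
    by_cases hsmall : ℓ = 2 ∨ ℓ = 3
    · unfold WeierstrassCurve.apOfModel
      rw [famModel_reductionMod W t ht6 ℓ hsmall]
      simp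
    · push Not at hsmall
      have h7 : 7 ≤ ℓ := by
        by_contra hlt
        push Not at hlt
        have h2 := hℓ.two_le
        interval_cases ℓ
        · exact hsmall.1 rfl
        · exact hsmall.2 rfl
        · exact absurd hℓ (by norm_num)
        · exact hℓ5 rfl
        · exact absurd hℓ (by norm_num)
      rw [apOfModel_eq _ ℓ (by omega), apOfModel_eq _ ℓ (by omega), famModel_c₄ W t ht6,
        famModel_c₆ W t ht6, c4fam_cast, c6fam_cast]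
      have hΔℓ : ((W.Δ : ℤ) : ZMod ℓ) ≠ 0 := by
        intro h0
        exact hg ((ZMod.intCast_zmod_eq_zero_iff_dvd _ _).1 h0)
      have hDℓ : Dfam ((W.c₄ : ℤ) : ZMod ℓ) ((W.c₆ : ℤ) : ZMod ℓ) ((W.Δ : ℤ) : ZMod ℓ) (t : ZMod ℓ)
          ≠ 0 := by
        intro h0
        apply hg'
        rw [famModel_Δ W hΔ t ht6]
        rw [← Dfam_cast] at h0
        exact Dvd.dvd.mul_left (Dvd.dvd.pow ((ZMod.intCast_zmod_eq_zero_iff_dvd _ _).1 h0)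
          (by norm_num)) _
      have hrelℓ : ((W.c₄ : ℤ) : ZMod ℓ) ^ 3 - ((W.c₆ : ℤ) : ZMod ℓ) ^ 2
          = 1728 * ((W.Δ : ℤ) : ZMod ℓ) := by
        have := congrArg (Int.cast : ℤ → ZMod ℓ) hrel
        push_cast at this
        exact this
      have := card_congr ℓ h7 _ _ _ (t : ZMod ℓ) hrelℓ hΔℓ hDℓ
      obtain ⟨k, hk⟩ := this
      exact ⟨-k, by linear_combination -hk⟩

end Fermat.Agent.S52
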