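import Fermat.Statements.S53
import Fermat.Agent.S53.Hgen
import Fermat.Agent.S53.IdealGen
import Fermat.Agent.S53.Univ
import Fermat.Agent.S53.UnivProp
import Fermat.Agent.S53.Runiv
import Fermat.Agent.S53.LimitRing

set_option autoImplicit false
set_option linter.unusedSectionVars false
open GaloisRep

namespace Fermat.Agent.S53

open IsLocalRing

section aux

variable {𝒪 : Type} [CommRing 𝒪] [IsLocalRing 𝒪]
variable {𝒟 : ∀ ⦃A : Type⦄ [CommRing A] [IsLocalRing A] [Algebra 𝒪 A], GaloisRepAdic A → Prop}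

/-- invariance of `𝒟` under equivalence over complete Noetherian local algebras. -/
theorem fin_type_of_isEquiv (h𝒟 : IsDeformationCondition 𝒪 𝒟)
    {A : Type} [CommRing A] [IsLocalRing A] [IsNoetherianRing A]
    [IsAdicComplete (maximalIdeal A) A] [Algebra 𝒪 A] [IsLocalHom (algebraMap 𝒪 A)]
    (hA : Function.Surjective (residue A ∘ algebraMap 𝒪 A))
    {ρ ρ' : GaloisRepAdic A} (e : ρ.IsEquiv ρ') (h : 𝒟 ρ) : 𝒟 ρ' := by
  rw [h𝒟.iff_forall_surjective inferInstance hA] at h ⊢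
  intro B _ _ _ hB q hq hqs
  obtain ⟨e⟩ := e
  exact h𝒟.of_isEquiv hB ⟨e.baseChangeAlong _ hq⟩ (h hB q hq hqs)

variable {A B : Type} [CommRing A] [IsLocalRing A] [Algebra 𝒪 A]
  [CommRing B] [IsLocalRing B] [Algebra 𝒪 B]
variable {rbar : GQ →* M2 (ResidueField 𝒪)} {S : SliceIdx GQ} {c : Fin 3 → 𝒪}

theorem fin_isLift_mapMat {r : GQ →* M2 A} (hl : IsLift rbar r) (φ : A →ₐ[𝒪] B)
    (hφ : IsLocalHom (φ : A →+* B)) : IsLift rbar (mapMat (φ : A →+* B) r) := by
  intro σ i j x hx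
  have h1 := hl σ i j x hx
  have h2 : mapMat (φ : A →+* B) r σ i j - algebraMap 𝒪 B x = φ (r σ i j - algebraMap 𝒪 A x) := by
    rw [map_sub, AlgHom.commutes]; rfl
  rw [h2]
  exact (mem_maximalIdeal _).mpr fun hu =>
    (mem_maximalIdeal _).mp h1 (hφ.map_nonunit _ hu)

theorem fin_isNormalized_mapMat {r : GQ →* M2 A} (hn : IsNormalized S c r) (φ : A →ₐ[𝒪] B) :
    IsNormalized S c (mapMat (φ : A →+* B) r) := by
  intro s
  have : mapMat (φ : A →+* B) r (S.h s) (S.a s) (S.b s) = φ (r (S.h s) (S.a s) (S.b s)) := rfl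
  rw [this, hn s, AlgHom.commutes]

end aux

theorem result
    (𝒪 : Type) [CommRing 𝒪] [IsDomain 𝒪] [IsDiscreteValuationRing 𝒪]
    [IsAdicComplete (IsLocalRing.maximalIdeal 𝒪) 𝒪] [Finite (IsLocalRing.ResidueField 𝒪)]
    (ρbar : ResidualGaloisRep (IsLocalRing.ResidueField 𝒪))
    (𝒟 : ∀ ⦃A : Type⦄ [CommRing A] [IsLocalRing A] [Algebra 𝒪 A], GaloisRepAdic A → Prop)
    (habs : ρbar.IsAbsolutelyIrreducible)
    (h𝒟 : GaloisRep.IsDeformationCondition 𝒪 𝒟)
    (hbar : 𝒟 (GaloisRepAdic.ofResidualGaloisRep ρbar))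
    (hfin : GaloisRep.TangentFinite 𝒪 ρbar 𝒟) :
    Nonempty (GaloisRep.DeformationRingData 𝒪 ρbar 𝒟) := by
  classical
  let b := someBasisRes ρbar
  obtain ⟨rbar, hfac, e, hrb⟩ := exists_resOfMat_of_basis ρbar b
  have hrbar : rbar = matOfRes ρbar b := by
    ext σ : 1
    exact hrb σ
  subst hrbar
  obtain ⟨S, c, hS⟩ := exists_sliceData ρbar habs b
  -- `rbar` itself is a deformation
  have hbarDefo : IsDefo 𝒟 (matOfRes ρbar b) S c (matOfRes ρbar b) :=
    { cont := matCont_of_factors hfac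
      lift := by
        intro σ i j x hx
        have : algebraMap 𝒪 (ResidueField 𝒪) x = residue 𝒪 x := rfl
        rw [this, hx, sub_self]
        exact Ideal.zero_mem _
      norm := fun s => (hS.lift s).symm
      type := h𝒟.of_isEquiv isArtinianTestAlgebra_residueField
        (ofResidualGaloisRep_isEquiv e (matCont_of_factors hfac)) hbar }
  have hG := goodAxioms h𝒟 hbarDefo
  obtain ⟨T, hT⟩ := exists_hgen h𝒟 ρbar b hS hfin
  obtain ⟨I, hadm, hle, hpow, hsucc, hmin⟩ :=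
    Adm.exists_least_adm (matOfRes ρbar b : GQ → Matrix (Fin 2) (Fin 2) (ResidueField 𝒪))
      (Good 𝒟 (matOfRes ρbar b) S c) hG ⟨T, hT⟩
  obtain ⟨s, u, hu', hu⟩ := exists_ideal_generators
    (matOfRes ρbar b : GQ → Matrix (Fin 2) (Fin 2) (ResidueField 𝒪)) T
  obtain ⟨R, _, _, _, _, _, _, hres, j, π, hπj, hker⟩ := exists_limitRing 𝒪 (Adm.U 𝒪 GQ)
    (Adm.mU (matOfRes ρbar b : GQ → Matrix (Fin 2) (Fin 2) (ResidueField 𝒪)))
    (fun f => Adm.exists_sub_C_mem _ f) (fun x => Adm.C_mem_mU_iff _ x) I hle hpow hsucc s u hu'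
    (fun n => hu (I n) (hle n) (hT (I n) (hadm n)))
  obtain ⟨runiv, hruniv, hdefo⟩ := exists_runiv h𝒟 hadm hres hπj hker
  refine ⟨{ R := R
            residue_surjective := hres
            absIrr := habs
            ρ := ofMat runiv hdefo.cont
            isOfType := hdefo.type
            residual_isEquiv := residual_isEquiv_of_isLift e hdefo.cont hdefo.lift
            universal := ?_ }⟩
  intro A _ _ _ _ _ _ hA ρA hρA hresA
  obtain ⟨r, hr, e1, hl⟩ := exists_isLift_of_residual_isEquiv e ρA hresA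
  obtain ⟨P, hl', hn'⟩ := exists_normalized hS r hl
  have hr' : MatCont (conjMat P r) := conjMat_cont P hr
  have e2 : ρA.IsEquiv (ofMat (conjMat P r) hr') :=
    isEquiv_trans e1 (ofMat_isEquiv_conjMat P hr)
  have hdefo' : IsDefo 𝒟 (matOfRes ρbar b) S c (conjMat P r) :=
    ⟨hr', hl', hn', fin_type_of_isEquiv h𝒟 hA e2 hρA⟩
  obtain ⟨φ, hφ, huniq⟩ := runiv_universal h𝒟 hmin hπj hker runiv hruniv A hA (conjMat P r) hdefo'
  refine ⟨φ, ?_, ?_⟩
  · have hloc := isLocalHom_of_residue_surjective A hA φ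
    refine ⟨hloc, ?_⟩
    have h1 := baseChangeAlong_ofMat (φ : R →+* A) hloc runiv hdefo.cont
      (hdefo.cont.mapMat _ hloc)
    refine isEquiv_trans h1 ?_
    have h2 : (ofMat (mapMat (φ : R →+* A) runiv) (hdefo.cont.mapMat _ hloc)).IsEquiv
        (ofMat (conjMat P r) hr') := by
      rw [ofMat_isEquiv_iff]
      exact ⟨1, fun σ => by rw [hφ]; simp⟩
    exact isEquiv_trans h2 (isEquiv_symm e2)
  · rintro ψ ⟨hψ, e3⟩
    apply huniq
    have h1 := baseChangeAlong_ofMat (ψ : R →+* A) hψ runiv hdefo.cont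
      (hdefo.cont.mapMat _ hψ)
    have h2 : (ofMat (mapMat (ψ : R →+* A) runiv) (hdefo.cont.mapMat _ hψ)).IsEquiv
        (ofMat (conjMat P r) hr') :=
      isEquiv_trans (isEquiv_symm h1) (isEquiv_trans e3 e2)
    rw [ofMat_isEquiv_iff] at h2
    obtain ⟨Q, hQ⟩ := h2
    exact eq_of_isConjBy hS (fin_isLift_mapMat hdefo.lift ψ hψ) hl' (fin_isNormalized_mapMat hdefo.norm ψ) hn' Q Q.isUnit hQ

end Fermat.Agent.S53
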