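import Fermat.Statements.S57
import Fermat.Agent.S57.Depth
import Fermat.Agent.S57.PowerSeries

set_option autoImplicit false
open Algebra Algebra.PatchingLevel

namespace Fermat.Agent.S57

open MvPowerSeries IsLocalRing RingTheory.Sequence TensorProduct

section

variable {𝒪 : Type} [CommRing 𝒪]
    {r : ℕ} {R : Type} [CommRing R] [Algebra 𝒪 R]
    {M : Type} [AddCommGroup M] [Module R M]
    (L : Algebra.PatchingLevel 𝒪 r R M ⊥)

/-- The coordinate isomorphism `S^d ≃+ N` given by the `φ`-basis `b`. -/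
noncomputable def coordEquiv : (Fin L.d → MvPowerSeries (Fin r) 𝒪) ≃+ L.N :=
  AddEquiv.ofBijective
    ({ toFun := fun c => ∑ i, L.φ (c i) • L.b i
       map_zero' := by simp
       map_add' := by
        intro c c'
        simp [add_smul, Finset.sum_add_distrib] } :
      (Fin L.d → MvPowerSeries (Fin r) 𝒪) →+ L.N)
    (by
      constructor
      · rw [injective_iff_map_eq_zero]
        intro c hc
        have := (L.b_rel c).1 hc
        ext1 i
        exact this i
      · intro x
        obtain ⟨c, hc⟩ := L.b_span x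
        exact ⟨c, hc.symm⟩)

theorem coordEquiv_apply (c : Fin L.d → MvPowerSeries (Fin r) 𝒪) :
    coordEquiv L c = ∑ i, L.φ (c i) • L.b i := rfl

theorem coordEquiv_smul (s : MvPowerSeries (Fin r) 𝒪) (c : Fin L.d → MvPowerSeries (Fin r) 𝒪) :
    coordEquiv L (s • c) = L.φ s • coordEquiv L c := by
  rw [coordEquiv_apply, coordEquiv_apply, Finset.smul_sum]
  refine Finset.sum_congr rfl fun i _ => ?_
  rw [Pi.smul_apply, smul_eq_mul, map_mul, mul_smul]

theorem finite_N : Module.Finite (MvPowerSeries (Fin r) 𝒪) L.N := by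
  refine Module.Finite.of_surjective (Fintype.linearCombination (MvPowerSeries (Fin r) 𝒪) L.b) ?_
  intro x
  obtain ⟨c, hc⟩ := L.b_span x
  refine ⟨fun i => L.φ (c i), ?_⟩
  rw [Fintype.linearCombination_apply, hc]

theorem nontrivial_N [Nontrivial M] : Nontrivial L.N :=
  L.π_surjective.nontrivial

end

theorem free_N {𝒪 : Type} [CommRing 𝒪] [IsDomain 𝒪] [IsDiscreteValuationRing 𝒪]
    {r : ℕ} {R : Type} [CommRing R] [Algebra 𝒪 R]
    {M : Type} [AddCommGroup M] [Module R M] [Nontrivial M]
    (L : Algebra.PatchingLevel 𝒪 r R M ⊥) : Module.Free (MvPowerSeries (Fin r) 𝒪) L.N := by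
  obtain ⟨ϖ, hϖ⟩ := IsDiscreteValuationRing.exists_irreducible 𝒪
  have hfin := finite_N L
  have hnt := nontrivial_N L
  have hnt' : Nontrivial (Fin L.d → MvPowerSeries (Fin r) 𝒪) :=
    (coordEquiv L).toEquiv.nontrivial
  set ys : List (MvPowerSeries (Fin r) 𝒪) :=
    List.ofFn (X : Fin r → MvPowerSeries (Fin r) 𝒪) ++ [C ϖ] with hys
  have hspan : Ideal.ofList ys = maximalIdeal (MvPowerSeries (Fin r) 𝒪) :=
    ofList_eq_maximalIdeal ϖ hϖ
  have hlen : ys.length = r + 1 := by simp [hys]
  have hw : IsWeaklyRegular (MvPowerSeries (Fin r) 𝒪) ys :=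
    isWeaklyRegular_ofFn_X_append ϖ hϖ.ne_zero
  have hw' : IsWeaklyRegular (Fin L.d → MvPowerSeries (Fin r) 𝒪) ys :=
    ((TensorProduct.rid (MvPowerSeries (Fin r) 𝒪)
      (Fin L.d → MvPowerSeries (Fin r) 𝒪)).isWeaklyRegular_congr ys).1
      (hw.isWeaklyRegular_lTensor (M₂ := Fin L.d → MvPowerSeries (Fin r) 𝒪))
  have hmem : ∀ y ∈ ys, y ∈ maximalIdeal (MvPowerSeries (Fin r) 𝒪) := by
    intro y hy
    rw [← hspan]
    exact Ideal.subset_span hy
  have hreg : IsRegular (Fin L.d → MvPowerSeries (Fin r) 𝒪) ys :=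
    IsRegular.of_isWeaklyRegular_of_mem_maximalIdeal _ hmem hw'
  have hregN : IsRegular L.N (ys.map L.φ) :=
    ((coordEquiv L).isRegular_congr (List.forall₂_map_right_iff.mpr <|
      List.forall₂_same.mpr fun s _ c => coordEquiv_smul L s c)).1 hreg
  refine free_of_isRegular (r + 1) (MvPowerSeries (Fin r) 𝒪) ys hlen hspan L.N (ys.map L.φ)
    (by simpa using hlen) ?_ hregN
  intro z hz
  by_contra hzu
  rw [mem_maximalIdeal, mem_nonunits_iff, not_not] at hzu
  apply hregN.top_ne_smul
  have : Ideal.ofList (ys.map L.φ) = ⊤ :=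
    Ideal.eq_top_of_isUnit_mem _ (Ideal.subset_span hz) hzu
  rw [this, Submodule.top_smul]

theorem result
    {𝒪 : Type} [CommRing 𝒪] [IsDomain 𝒪] [IsDiscreteValuationRing 𝒪]
    {r : ℕ} {R : Type} [CommRing R] [Algebra 𝒪 R]
    {M : Type} [AddCommGroup M] [Module R M] [Nontrivial M]
    (L : Algebra.PatchingLevel 𝒪 r R M ⊥) :
    Module.Free R M ∧ Module.annihilator R M = ⊥ ∧
      RingHom.ker L.ψ = Ideal.span (Set.range fun i : Fin r => L.φ (MvPowerSeries.X i)) := by
  have hfree := free_N L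
  have hnt := nontrivial_N L
  set I : Ideal (MvPowerSeries (Fin r) 𝒪) :=
    Ideal.span (Set.range fun i : Fin r => L.φ (MvPowerSeries.X i)) with hI
  let bN := Module.Free.chooseBasis (MvPowerSeries (Fin r) 𝒪) L.N
  have hIψ : ∀ f ∈ I, L.ψ f = 0 := by
    intro f hf
    have hle : I ≤ RingHom.ker L.ψ := by
      rw [hI, Ideal.span_le]
      rintro _ ⟨i, rfl⟩
      exact L.ψ_φ_X i
    exact hle hf
  -- coordinates of elements of `I • N` lie in `I`
  have hrepr : ∀ x ∈ I • (⊤ : Submodule (MvPowerSeries (Fin r) 𝒪) L.N), ∀ j, bN.repr x j ∈ I := by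
    intro x hx j
    induction hx using Submodule.smul_induction_on' with
    | smul a ha n _ =>
      rw [map_smul, Finsupp.smul_apply, smul_eq_mul]
      exact Ideal.mul_mem_right _ _ ha
    | add x _ y _ hx hy =>
      rw [map_add, Finsupp.add_apply]
      exact Ideal.add_mem _ hx hy
  -- linear independence
  have hπsum : ∀ (s : Finset _) (f : _ → MvPowerSeries (Fin r) 𝒪),
      L.π (∑ i ∈ s, f i • bN i) = ∑ i ∈ s, L.ψ (f i) • L.π (bN i) := by
    intro s f
    rw [map_sum]
    exact Finset.sum_congr rfl fun i _ => L.π_smul _ _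
  have hli : LinearIndependent R (fun j => L.π (bN j)) := by
    classical
    rw [linearIndependent_iff']
    intro s g hg j hj
    let f : _ → MvPowerSeries (Fin r) 𝒪 := fun i => Function.surjInv L.ψ_surjective (g i)
    have hf : ∀ i, L.ψ (f i) = g i := fun i => Function.surjInv_eq L.ψ_surjective (g i)
    have h0 : L.π (∑ i ∈ s, f i • bN i) = 0 := by
      rw [hπsum, ← hg]
      exact Finset.sum_congr rfl fun i _ => by rw [hf]
    have h1 := hrepr _ ((L.ker_π _).1 h0) j
    have h2 : bN.repr (∑ i ∈ s, f i • bN i) j = f j := by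
      rw [map_sum, Finsupp.finsetSum_apply]
      simp only [map_smul, Module.Basis.repr_self, Finsupp.smul_apply, smul_eq_mul,
        Finsupp.single_apply, mul_ite, mul_one, mul_zero]
      rw [Finset.sum_ite_eq' s j, if_pos hj]
    rw [h2] at h1
    rw [← hf j]
    exact hIψ _ h1
  have hsp : ⊤ ≤ Submodule.span R (Set.range fun j => L.π (bN j)) := by
    intro y hy
    clear hy
    obtain ⟨x, rfl⟩ := L.π_surjective y
    have hx : x ∈ Submodule.span (MvPowerSeries (Fin r) 𝒪) (Set.range bN) := by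
      rw [bN.span_eq]; trivial
    induction hx using Submodule.span_induction with
    | mem x hx =>
      obtain ⟨j, rfl⟩ := hx
      exact Submodule.subset_span ⟨j, rfl⟩
    | zero => rw [map_zero]; exact Submodule.zero_mem _
    | add x y _ _ hx hy => rw [map_add]; exact Submodule.add_mem _ hx hy
    | smul a x _ hx => rw [L.π_smul]; exact Submodule.smul_mem _ _ hx
  have hfreeM : Module.Free R M := Module.Free.of_basis (Module.Basis.mk hli hsp)
  refine ⟨hfreeM, ?_, ?_⟩
  · rw [Module.annihilator_eq_bot]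
    infer_instance
  · apply le_antisymm
    · intro f hf
      obtain ⟨j0⟩ : Nonempty (Module.Free.ChooseBasisIndex (MvPowerSeries (Fin r) 𝒪) L.N) :=
        bN.index_nonempty
      have h0 : L.π (f • bN j0) = 0 := by
        rw [L.π_smul, (RingHom.mem_ker).1 hf, zero_smul]
      have h1 := hrepr _ ((L.ker_π _).1 h0) j0
      simpa using h1
    · intro f hf
      exact hIψ f hf

end Fermat.Agent.S57
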