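-- Statement S58 (row 52): conductor-level matching.
import Fermat.Statements.S58
import Fermat.Agent.S58.Top.Min
import Fermat.Agent.S58.Top.Level
import Fermat.Agent.S58.Cmp.CoeffEq
import Fermat.Agent.S58.Raise.Main

set_option autoImplicit false
set_option autoImplicit false
open WeierstrassCurve

namespace Fermat.Agent.S58

theorem result
    (W : WeierstrassCurve ℤ) (hss : W.IsSemistableModel) (N : ℕ)
    (p : ℕ) [Fact p.Prime] (hp2 : p ≠ 2) (hirr : W.ModRepIsIrreducible p)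
    (hp2N : ¬ p ^ 2 ∣ N)
    (hN : W.IsModularModelOfLevel N) (hbad : ∀ ℓ : ℕ, ℓ.Prime → (ℓ : ℤ) ∣ W.Δ → ℓ ∣ N)
    (hN3 : ∀ q : ℕ, q.Prime → ¬ q ^ 3 ∣ N) :
    W.IsModularModelOfLevel W.conductorLevel := by
  classical
  have hN0 : N ≠ 0 := by
    rintro rfl
    exact hN3 2 Nat.prime_two (dvd_zero _)
  have hΔ0 : W.Δ ≠ 0 := by
    intro h0
    obtain ⟨ℓ, hℓN, hℓ⟩ := Nat.exists_infinite_primes (N + 1)
    have := Nat.le_of_dvd (Nat.pos_of_ne_zero hN0) (hbad ℓ hℓ (by rw [h0]; exact dvd_zero _))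
    omega
  obtain ⟨f, hf, hfW⟩ := hN
  obtain ⟨N₀, g, hdvd, hg, hgf⟩ := exists_min hN0 hf
  have hN₀ : N₀ ≠ 0 := by
    rintro rfl
    exact hN0 (Nat.eq_zero_of_zero_dvd hdvd)
  have : NeZero N₀ := ⟨hN₀⟩
  -- `a_ℓ(g) = a_ℓ(W)` outside `N`
  have hgW : ∀ ℓ : ℕ, ℓ.Prime → ℓ ∉ N.primeFactors →
      ModularFormClass.qCoeff g ℓ = (W.apOfModel ℓ : ℂ) := by
    intro ℓ hℓ hℓN
    have hℓN' : ¬ ℓ ∣ N := fun hd => hℓN (Nat.mem_primeFactors.mpr ⟨hℓ, hd, hN0⟩)
    rw [hgf ℓ hℓ hℓN']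
    exact hfW ℓ hℓ (fun hd => hℓN' (hbad ℓ hℓ hd)) hℓN'
  -- `N₀` is squarefree
  have hsq : Squarefree N₀ := by
    rw [Nat.squarefree_iff_prime_squarefree]
    intro q hq hqq
    apply no_square W hss hΔ0 hg N.primeFactors hgW hq
    have h1 : 2 ≤ N₀.factorization q :=
      (hq.pow_dvd_iff_le_factorization hN₀).mp (by rw [pow_two]; exact hqq)
    have h2 : ¬ 3 ≤ N₀.factorization q := fun h3 =>
      hN3 q hq (((hq.pow_dvd_iff_le_factorization hN₀).mpr h3).trans hdvd)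
    omega
  -- `N₀` divides the conductor level
  have hcond : N₀ ∣ W.conductorLevel := by
    rw [← Nat.prod_primeFactors_of_squarefree hsq]
    apply Finset.prod_primes_dvd
    · intro q hq
      exact (Nat.prime_of_mem_primeFactors hq).prime
    · intro q hq
      have hq' := Nat.prime_of_mem_primeFactors hq
      rw [W.prime_dvd_conductorLevel_iff hΔ0 hq']
      refine no_good W hΔ0 hg N.primeFactors hgW hq' (Nat.dvd_of_mem_primeFactors hq) ?_
      intro h2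
      rw [pow_two] at h2
      exact hq'.not_isUnit (hsq q h2)
  obtain ⟨h, hh, hhg⟩ := raise hcond W.squarefree_conductorLevel hg.1
  refine ⟨h, hh, ?_⟩
  intro ℓ hℓ hgood hℓc
  rw [hhg ℓ hℓ hℓc]
  exact coeff_eq W hΔ0 hN₀ hg.1 N.primeFactors hgW ℓ hℓ (fun hd => hℓc (hd.trans hcond)) hgood

end Fermat.Agent.S58
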